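import Mathlib.NumberTheory.SumPrimeReciprocals
import Mathlib.Algebra.BigOperators.Field
import Mathlib.Algebra.Order.Floor.Semifield
import Mathlib.Analysis.PSeries
import Mathlib.Analysis.Complex.Basic
import Mathlib.Topology.Algebra.InfiniteSum.Real

/-!
# Kátai's orthogonality criterion

For a finite set `P` of large primes with `L = ∑ 1 / p` big, almost every `n` has about `L`
divisors in `P` (Turán). Hence `L ∑ f n a n` is about `∑ₘ f m ∑ₚ f p a (p m)`, and by
Cauchy-Schwarz that is governed by the sums `∑ₘ a (p m) conj (a (q m))`.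
-/

set_option autoImplicit false

noncomputable section

namespace FA.Katai

open Finset Filter Topology
open scoped ComplexConjugate

/-- The multiples of `p` in `[1, N]`. -/
theorem sum_filter_dvd {M : Type*} [AddCommMonoid M] {p : ℕ} (hp : 0 < p) (N : ℕ) (F : ℕ → M) :
    ∑ n ∈ (Icc 1 N).filter (p ∣ ·), F n = ∑ m ∈ Icc 1 (N / p), F (p * m) := by
  refine sum_nbij' (fun n => n / p) (fun m => p * m) ?_ ?_ ?_ ?_ ?_
  · intro n hn
    rw [mem_filter, mem_Icc] at hn
    obtain ⟨⟨h1, h2⟩, k, rfl⟩ := hn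
    rw [mem_Icc, Nat.mul_div_cancel_left k hp]
    exact ⟨Nat.pos_of_ne_zero (by rintro rfl; simp at h1),
      (Nat.le_div_iff_mul_le hp).2 (mul_comm p k ▸ h2)⟩
  · intro m hm
    rw [mem_Icc] at hm
    rw [mem_filter, mem_Icc]
    exact ⟨⟨Nat.one_le_iff_ne_zero.2 (mul_ne_zero hp.ne' (by omega)),
      mul_comm p m ▸ (Nat.le_div_iff_mul_le hp).1 hm.2⟩, dvd_mul_right p m⟩
  · exact fun n hn => Nat.mul_div_cancel' (mem_filter.1 hn).2
  · exact fun m _ => Nat.mul_div_cancel_left m hp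
  · intro n hn
    rw [Nat.mul_div_cancel' (mem_filter.1 hn).2]

/-- The number of multiples of `p` in `[1, N]`. -/
theorem card_filter_dvd {p : ℕ} (hp : 0 < p) (N : ℕ) :
    #((Icc 1 N).filter (p ∣ ·)) = N / p := by
  rw [card_eq_sum_ones, sum_filter_dvd hp N (fun _ => 1)]
  simp

/-- The number of divisors of `n` in `P`. -/
def countIn (P : Finset ℕ) (n : ℕ) : ℝ := ∑ p ∈ P, if p ∣ n then (1 : ℝ) else 0

/-- `∑ 1 / p` over `P`. -/
def recipSum (P : Finset ℕ) : ℝ := ∑ p ∈ P, (1 : ℝ) / p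

variable {P : Finset ℕ}

theorem sum_countIn_mul (hP : ∀ p ∈ P, p.Prime) (N : ℕ) (F : ℕ → ℂ) :
    ∑ n ∈ Icc 1 N, (countIn P n : ℂ) * F n = ∑ p ∈ P, ∑ m ∈ Icc 1 (N / p), F (p * m) := by
  simp only [countIn, Complex.ofReal_sum, sum_mul, apply_ite Complex.ofReal, ite_mul,
    Complex.ofReal_one, Complex.ofReal_zero, one_mul, zero_mul]
  rw [sum_comm]
  refine sum_congr rfl fun p hp => ?_
  rw [← sum_filter, sum_filter_dvd (hP p hp).pos]

/-- **Turán's inequality** for the primes of `P`. -/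
theorem sum_sq_countIn_sub_le (hP : ∀ p ∈ P, p.Prime) (N : ℕ) :
    ∑ n ∈ Icc 1 N, (countIn P n - recipSum P) ^ 2 ≤
      N * recipSum P + 2 * recipSum P * #P := by
  set L := recipSum P with hL
  have hL0 : 0 ≤ L := sum_nonneg fun p _ => by positivity
  have h1 : N * L - #P ≤ ∑ n ∈ Icc 1 N, countIn P n := by
    simp only [countIn]
    rw [sum_comm, hL, recipSum, mul_sum, card_eq_sum_ones, Nat.cast_sum, ← sum_sub_distrib]
    refine sum_le_sum fun p hp => ?_
    rw [sum_boole, card_filter_dvd (hP p hp).pos, Nat.cast_one, mul_one_div]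
    rw [sub_le_iff_le_add]
    exact (Nat.lt_floor_add_one _).le.trans_eq (by rw [Nat.floor_div_eq_div])
  have h2 : ∑ n ∈ Icc 1 N, countIn P n ^ 2 ≤ N * L + N * L ^ 2 := by
    have e : ∀ n, countIn P n ^ 2 = ∑ p ∈ P, ∑ q ∈ P, if p ∣ n ∧ q ∣ n then (1 : ℝ) else 0 := by
      intro n
      rw [countIn, sq, sum_mul_sum]
      refine sum_congr rfl fun p _ => sum_congr rfl fun q _ => ?_
      split_ifs <;> simp_all
    have e2 : (N : ℝ) * L + N * L ^ 2 = ∑ p ∈ P, ∑ q ∈ P,
        ((if p = q then (N : ℝ) / p else 0) + N / ((p : ℝ) * q)) := by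
      rw [hL, recipSum, sq, sum_mul_sum]
      simp only [sum_add_distrib, sum_ite_eq, mul_sum]
      refine congrArg₂ (· + ·) (sum_congr rfl fun p hp => by rw [if_pos hp, mul_one_div])
        (sum_congr rfl fun p _ => sum_congr rfl fun q _ => ?_)
      rw [div_mul_div_comm, one_mul, mul_one_div]
    rw [sum_congr rfl fun n _ => e n, sum_comm, e2]
    refine sum_le_sum fun p hp => ?_
    rw [sum_comm]
    refine sum_le_sum fun q hq => ?_
    rw [sum_boole]
    split_ifs with hpq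
    · subst hpq
      rw [filter_congr fun n _ => and_self_iff (a := p ∣ n), card_filter_dvd (hP p hp).pos]
      exact Nat.cast_div_le.trans (le_add_of_nonneg_right (by positivity))
    · have hc : p.Coprime q := (Nat.coprime_primes (hP p hp) (hP q hq)).2 hpq
      rw [filter_congr fun n _ => show p ∣ n ∧ q ∣ n ↔ p * q ∣ n from
        ⟨fun h => hc.mul_dvd_of_dvd_of_dvd h.1 h.2,
          fun h => ⟨(dvd_mul_right p q).trans h, (dvd_mul_left q p).trans h⟩⟩,
        card_filter_dvd (Nat.mul_pos (hP p hp).pos (hP q hq).pos), zero_add]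
      exact Nat.cast_div_le.trans_eq (by push_cast; rfl)
  simp only [sub_sq, sum_add_distrib, sum_sub_distrib, ← sum_mul, ← mul_sum, sum_const,
    Nat.card_Icc, Nat.add_sub_cancel, nsmul_eq_mul]
  nlinarith [mul_le_mul_of_nonneg_left h1 hL0]

theorem sum_inv_sq_le_one (hP : ∀ p ∈ P, p.Prime) : ∑ p ∈ P, ((p : ℝ) ^ 2)⁻¹ ≤ 1 := by
  obtain ⟨K, hK⟩ : ∃ K, ∀ p ∈ P, p ≤ K := ⟨P.sup id, fun p hp => le_sup (f := id) hp⟩
  refine (sum_le_sum_of_subset_of_nonneg (t := Ioc 1 (K + 1)) (fun p hp => mem_Ioc.2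
    ⟨(hP p hp).one_lt, (hK p hp).trans K.le_succ⟩) fun p _ _ => by positivity).trans ?_
  refine (sum_Ioc_inv_sq_le_sub one_ne_zero (by omega)).trans ?_
  simp only [Nat.cast_one, inv_one, sub_le_self_iff]
  positivity

/-- A real number is at most `(δ + x ^ 2 / δ) / 2`. -/
theorem abs_le_half_add {δ : ℝ} (hδ : 0 < δ) (x : ℝ) : |x| ≤ (δ + x ^ 2 / δ) / 2 := by
  rw [le_div_iff₀ two_pos, add_div' _ _ _ hδ.ne', le_div_iff₀ hδ]
  nlinarith [sq_abs x, sq_nonneg (|x| - δ)]

/-- The bilinear inequality behind Kátai's criterion. -/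
theorem recipSum_mul_norm_sum_le {f a : ℕ → ℂ}
    (hmul : ∀ m n : ℕ, m.Coprime n → f (m * n) = f m * f n) (hf : ∀ n, ‖f n‖ ≤ 1)
    (ha : ∀ n, ‖a n‖ ≤ 1) (hP : ∀ p ∈ P, p.Prime) (N : ℕ) {δ E : ℝ} (hδ : 0 < δ) (hE0 : 0 ≤ E)
    (hE : ∀ p ∈ P, ∀ q ∈ P, p ≠ q →
      ‖∑ m ∈ Icc 1 (min (N / p) (N / q)), a (p * m) * conj (a (q * m))‖ ≤ E) :
    recipSum P * ‖∑ n ∈ Icc 1 N, f n * a n‖ ≤
      N * δ + (2 * (N * recipSum P) + 2 * recipSum P * #P + #P ^ 2 * E) / (2 * δ) + 2 * N := by
  set L := recipSum P with hL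
  have hL0 : 0 ≤ L := sum_nonneg fun p _ => by positivity
  set S := ∑ n ∈ Icc 1 N, f n * a n with hS
  set T : ℕ → ℂ := fun m => ∑ p ∈ P, if m ≤ N / p then f p * a (p * m) else 0 with hT
  -- `L S` against the sum weighted by the number of divisors in `P`
  have h1 : ‖(L : ℂ) * S - ∑ n ∈ Icc 1 N, (countIn P n : ℂ) * (f n * a n)‖ ≤
      N * δ / 2 + (N * L + 2 * L * #P) / (2 * δ) := by
    rw [hS, mul_sum, ← sum_sub_distrib]
    calc ‖∑ n ∈ Icc 1 N, ((L : ℂ) * (f n * a n) - (countIn P n : ℂ) * (f n * a n))‖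
        ≤ ∑ n ∈ Icc 1 N, (δ + (countIn P n - L) ^ 2 / δ) / 2 := by
          refine (norm_sum_le _ _).trans (sum_le_sum fun n _ => ?_)
          rw [← sub_mul, norm_mul, ← Complex.ofReal_sub, Complex.norm_real, Real.norm_eq_abs,
            abs_sub_comm, norm_mul]
          exact (mul_le_of_le_one_right (abs_nonneg _)
            (mul_le_one₀ (hf n) (norm_nonneg _) (ha n))).trans (abs_le_half_add hδ _)
      _ = N * δ / 2 + (∑ n ∈ Icc 1 N, (countIn P n - L) ^ 2) / (2 * δ) := by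
          rw [← sum_div, sum_add_distrib, ← sum_div, sum_const, Nat.card_Icc, nsmul_eq_mul,
            Nat.add_sub_cancel, add_div, div_div, mul_comm δ 2]
      _ ≤ _ := by gcongr; exact sum_sq_countIn_sub_le hP N
  -- replacing `f (p m)` by `f p * f m`
  have h2 : ‖∑ n ∈ Icc 1 N, (countIn P n : ℂ) * (f n * a n) -
      ∑ m ∈ Icc 1 N, f m * T m‖ ≤ 2 * N := by
    have e : ∑ m ∈ Icc 1 N, f m * T m =
        ∑ p ∈ P, ∑ m ∈ Icc 1 (N / p), f p * f m * a (p * m) := by
      simp only [hT, mul_sum, mul_ite, mul_zero]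
      rw [sum_comm]
      refine sum_congr rfl fun p _ => ?_
      rw [← sum_filter]
      refine sum_congr (ext fun m => ?_) fun m _ => by ring
      simp only [mem_filter, mem_Icc]
      exact ⟨fun h => ⟨h.1.1, h.2⟩, fun h => ⟨⟨h.1, h.2.trans (Nat.div_le_self N p)⟩, h.2⟩⟩
    rw [sum_countIn_mul hP, e, ← sum_sub_distrib]
    refine (norm_sum_le _ _).trans ((sum_le_sum fun p hp => ?_).trans
      ((mul_sum _ _ (2 * (N : ℝ))).ge.trans
        (mul_le_of_le_one_right (by positivity) (sum_inv_sq_le_one hP))))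
    rw [← sum_sub_distrib]
    refine (norm_sum_le _ _).trans ?_
    calc ∑ m ∈ Icc 1 (N / p), ‖f (p * m) * a (p * m) - f p * f m * a (p * m)‖
        ≤ ∑ m ∈ Icc 1 (N / p), if p ∣ m then (2 : ℝ) else 0 := by
          refine sum_le_sum fun m _ => ?_
          split_ifs with hd
          · rw [← sub_mul, norm_mul]
            refine (mul_le_of_le_one_right (norm_nonneg _) (ha _)).trans
              ((norm_sub_le _ _).trans ?_)
            rw [norm_mul]
            linarith [hf (p * m), mul_le_one₀ (hf p) (norm_nonneg _) (hf m)]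
          · rw [hmul p m ((Nat.Prime.coprime_iff_not_dvd (hP p hp)).2 hd), sub_self, norm_zero]
      _ = 2 * ((N / p / p : ℕ) : ℝ) := by
          rw [← sum_filter, sum_const, card_filter_dvd (hP p hp).pos, nsmul_eq_mul, mul_comm]
      _ ≤ 2 * (N : ℝ) * ((p : ℝ) ^ 2)⁻¹ := by
          rw [Nat.div_div_eq_div_mul, mul_assoc]
          refine mul_le_mul_of_nonneg_left (Nat.cast_div_le.trans_eq ?_) two_pos.le
          push_cast
          rw [div_eq_mul_inv, sq]
  -- Cauchy-Schwarz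
  have h3 : ‖∑ m ∈ Icc 1 N, f m * T m‖ ≤ N * δ / 2 + (N * L + #P ^ 2 * E) / (2 * δ) := by
    have hT2 : ∑ m ∈ Icc 1 N, ‖T m‖ ^ 2 ≤ N * L + #P ^ 2 * E := by
      have e : ((∑ m ∈ Icc 1 N, ‖T m‖ ^ 2 : ℝ) : ℂ) = ∑ p ∈ P, ∑ q ∈ P, f p * conj (f q) *
          ∑ m ∈ Icc 1 (min (N / p) (N / q)), a (p * m) * conj (a (q * m)) := by
        push_cast
        simp only [← Complex.mul_conj', hT, map_sum, sum_mul_sum]
        rw [sum_comm]
        refine sum_congr rfl fun p _ => ?_
        rw [sum_comm]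
        refine sum_congr rfl fun q _ => ?_
        rw [mul_sum]
        simp only [apply_ite conj, map_zero, map_mul, ite_mul, zero_mul, mul_ite, mul_zero,
          ← ite_and]
        rw [← sum_filter]
        refine sum_congr (ext fun m => ?_) fun m _ => by ring
        simp only [mem_filter, mem_Icc, le_min_iff]
        have := Nat.div_le_self N p
        omega
      have hb : ∀ p ∈ P, ∀ q ∈ P, ‖f p * conj (f q) *
          ∑ m ∈ Icc 1 (min (N / p) (N / q)), a (p * m) * conj (a (q * m))‖ ≤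
            (if p = q then (N : ℝ) / p else 0) + E := by
        intro p hp q hq
        rw [norm_mul, norm_mul, RCLike.norm_conj]
        refine (mul_le_of_le_one_left (norm_nonneg _)
          (mul_le_one₀ (hf p) (norm_nonneg _) (hf q))).trans ?_
        split_ifs with hpq
        · subst hpq
          rw [min_self]
          refine ((norm_sum_le_of_le (n := fun _ => (1 : ℝ)) _ fun m _ => ?_).trans ?_).trans
            (le_add_of_nonneg_right hE0)
          · rw [norm_mul, RCLike.norm_conj]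
            exact mul_le_one₀ (ha _) (norm_nonneg _) (ha _)
          · simpa using Nat.cast_div_le (α := ℝ)
        · rw [zero_add]
          exact hE p hp q hq hpq
      calc ∑ m ∈ Icc 1 N, ‖T m‖ ^ 2
          = ‖((∑ m ∈ Icc 1 N, ‖T m‖ ^ 2 : ℝ) : ℂ)‖ := by
            rw [Complex.norm_real, Real.norm_eq_abs,
              abs_of_nonneg (sum_nonneg fun m _ => sq_nonneg _)]
        _ ≤ ∑ p ∈ P, ∑ q ∈ P, ((if p = q then (N : ℝ) / p else 0) + E) := by
            rw [e]
            exact (norm_sum_le _ _).trans (sum_le_sum fun p hp =>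
              (norm_sum_le _ _).trans (sum_le_sum fun q hq => hb p hp q hq))
        _ = N * L + #P ^ 2 * E := by
            simp only [sum_add_distrib, sum_ite_eq, sum_const, nsmul_eq_mul, sq, mul_assoc]
            rw [hL, recipSum, mul_sum]
            exact congrArg (· + _) (sum_congr rfl fun p hp => by rw [if_pos hp, mul_one_div])
    calc ‖∑ m ∈ Icc 1 N, f m * T m‖ ≤ ∑ m ∈ Icc 1 N, (δ + ‖T m‖ ^ 2 / δ) / 2 := by
          refine (norm_sum_le _ _).trans (sum_le_sum fun m _ => ?_)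
          rw [norm_mul]
          exact (mul_le_of_le_one_left (norm_nonneg _) (hf m)).trans
            ((le_abs_self _).trans (abs_le_half_add hδ _))
      _ = N * δ / 2 + (∑ m ∈ Icc 1 N, ‖T m‖ ^ 2) / (2 * δ) := by
          rw [← sum_div, sum_add_distrib, ← sum_div, sum_const, Nat.card_Icc, nsmul_eq_mul,
            Nat.add_sub_cancel, add_div, div_div, mul_comm δ 2]
      _ ≤ _ := by gcongr
  have h4 : L * ‖S‖ = ‖(L : ℂ) * S‖ := by
    rw [norm_mul, Complex.norm_real, Real.norm_eq_abs, abs_of_nonneg hL0]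
  rw [h4]
  refine (norm_le_norm_sub_add _ (∑ n ∈ Icc 1 N, (countIn P n : ℂ) * (f n * a n))).trans ?_
  refine (add_le_add h1 ((norm_le_norm_sub_add _ _).trans (add_le_add h2 h3))).trans_eq ?_
  ring

theorem exists_primes_recipSum_ge (B : ℕ) (C : ℝ) :
    ∃ P : Finset ℕ, (∀ p ∈ P, p.Prime ∧ B < p) ∧ C ≤ recipSum P := by
  have h := (not_summable_iff_tendsto_nat_atTop_of_nonneg
    (fun n => Set.indicator_nonneg (fun p _ => by positivity) n)).1 not_summable_one_div_on_primes
  obtain ⟨n, hn⟩ := (tendsto_atTop.1 h (C + recipSum (range (B + 1)))).exists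
  refine ⟨((range n).filter Nat.Prime).filter (B < ·), fun p hp => ?_, ?_⟩
  · rw [mem_filter, mem_filter] at hp
    exact ⟨hp.1.2, hp.2⟩
  simp only [Set.indicator_apply, Set.mem_ofPred_eq, ← sum_filter] at hn
  rw [← sum_filter_add_sum_filter_not ((range n).filter Nat.Prime) (B < ·)] at hn
  have : ∑ p ∈ ((range n).filter Nat.Prime).filter (fun p => ¬B < p), (1 : ℝ) / p ≤
      recipSum (range (B + 1)) := by
    refine sum_le_sum_of_subset_of_nonneg (fun p hp => ?_) fun p _ _ => by positivity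
    simp only [mem_filter, mem_range] at hp ⊢
    omega
  rw [recipSum]
  linarith

/-- **Kátai's criterion**: the bound is uniform in the multiplicative function. -/
theorem katai {a : ℕ → ℂ} (ha : ∀ n, ‖a n‖ ≤ 1) (B : ℕ)
    (h : ∀ p q : ℕ, p.Prime → q.Prime → B < p → B < q → p ≠ q →
      Tendsto (fun N : ℕ => (∑ n ∈ Icc 1 N, a (p * n) * conj (a (q * n))) / N) atTop (𝓝 0))
    {ε : ℝ} (hε : 0 < ε) :
    ∀ᶠ N : ℕ in atTop, ∀ f : ℕ → ℂ, (∀ m n : ℕ, m.Coprime n → f (m * n) = f m * f n) →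
      (∀ n, ‖f n‖ ≤ 1) → ‖∑ n ∈ Icc 1 N, f n * a n‖ ≤ ε * N := by
  obtain ⟨P, hP, hC⟩ := exists_primes_recipSum_ge B (max 1 (10 / ε ^ 2 + 4 / ε))
  set L := recipSum P with hL
  have hL1 : 1 ≤ L := (le_max_left _ _).trans hC
  have hpair : ∀ᶠ N : ℕ in atTop, ∀ p ∈ P, ∀ q ∈ P, p ≠ q →
      ‖∑ m ∈ Icc 1 (min (N / p) (N / q)), a (p * m) * conj (a (q * m))‖ ≤
        (N : ℝ) / #P ^ 2 := by
    refine (eventually_all_finset P).2 fun p hp => (eventually_all_finset P).2 fun q hq => ?_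
    rcases eq_or_ne p q with rfl | hpq
    · exact Eventually.of_forall fun N h' => absurd rfl h'
    have hc : (0 : ℝ) < #P := Nat.cast_pos.2 (card_pos.2 ⟨p, hp⟩)
    have h1 := ((h p q (hP p hp).1 (hP q hq).1 (hP p hp).2 (hP q hq).2 hpq).norm).eventually
      (Iic_mem_nhds (show ‖(0 : ℂ)‖ < 1 / (#P : ℝ) ^ 2 by rw [norm_zero]; positivity))
    obtain ⟨M₀, hM₀⟩ := eventually_atTop.1 h1
    filter_upwards [eventually_ge_atTop ((M₀ + 1) * (p + q))] with N hN _
    set M := min (N / p) (N / q) with hM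
    have hM1 : M₀ + 1 ≤ M := le_min
      ((Nat.le_div_iff_mul_le (hP p hp).1.pos).2 ((Nat.mul_le_mul_left _ (by omega)).trans hN))
      ((Nat.le_div_iff_mul_le (hP q hq).1.pos).2 ((Nat.mul_le_mul_left _ (by omega)).trans hN))
    have := hM₀ M (by omega)
    rw [norm_div, Complex.norm_natCast,
      div_le_iff₀ (Nat.cast_pos.2 (by omega)), one_div_mul_eq_div] at this
    refine this.trans (div_le_div_of_nonneg_right ?_ (by positivity))
    exact_mod_cast (min_le_left _ _).trans (Nat.div_le_self N p)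
  filter_upwards [hpair, eventually_ge_atTop #P] with N hN hNP f hmul hf
  have hmain := recipSum_mul_norm_sum_le hmul hf ha (fun p hp => (hP p hp).1) N
    (δ := ε * L / 2) (by positivity) (by positivity) hN
  have hE : (#P : ℝ) ^ 2 * ((N : ℝ) / #P ^ 2) ≤ N := by
    rcases eq_or_ne #P 0 with h0 | h0
    · simp [h0]
    · rw [mul_div_cancel₀ _ (by positivity)]
  refine le_of_mul_le_mul_left (hmain.trans ?_) (zero_lt_one.trans_le hL1)
  have hNP' : (#P : ℝ) ≤ N := by exact_mod_cast hNP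
  have hN0 : (0 : ℝ) ≤ N := by positivity
  have hnum : 2 * (N * L) + 2 * L * #P + #P ^ 2 * ((N : ℝ) / #P ^ 2) ≤ 5 * (N * L) := by
    nlinarith [mul_le_mul_of_nonneg_left hNP' (zero_le_one.trans hL1)]
  calc N * (ε * L / 2) + (2 * (N * L) + 2 * L * #P + #P ^ 2 * ((N : ℝ) / #P ^ 2)) /
        (2 * (ε * L / 2)) + 2 * N
      ≤ N * (ε * L / 2) + 5 * (N * L) / (2 * (ε * L / 2)) + 2 * N := by gcongr
    _ = N * (ε * L / 2) + N * (5 / ε + 2) := by field_simp; ring
    _ ≤ N * (ε * L / 2) + N * (ε * L / 2) := by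
        gcongr
        have e : 5 / ε + 2 = ε / 2 * (10 / ε ^ 2 + 4 / ε) := by field_simp; ring
        rw [e, mul_div_right_comm]
        exact mul_le_mul_of_nonneg_left ((le_max_right _ _).trans hC) (by positivity)
    _ = L * (ε * N) := by ring

end FA.Katai
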