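import Fermat.Agent.Katai.Criterion
import Fermat.Agent.Equidistribution.Weyl

/-!
# Daboussi's theorem

A polynomial phase with an irrational coefficient other than the constant one is orthogonal to
every bounded multiplicative function: `P (p n) - P (q n)` again has such a coefficient, so Kátai's
criterion applies by Weyl's theorem.
-/

set_option autoImplicit false

noncomputable section

namespace FA.Katai

open Finset Filter Topology Polynomial
open FA.ThreePrimes (eAdd eAdd_add conj_eAdd norm_eAdd)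
open FA.Equidist (avg expMeanZero_poly)
open scoped ComplexConjugate

/-- A mean over `[0, N)` tending to zero gives one over `[1, N]`. -/
theorem tendsto_mean_Icc_of_range {g : ℕ → ℂ} (hg : ∀ n, ‖g n‖ ≤ 1)
    (h : Tendsto (fun N : ℕ => (∑ n ∈ range N, g n) / N) atTop (𝓝 0)) :
    Tendsto (fun N : ℕ => (∑ n ∈ Icc 1 N, g n) / N) atTop (𝓝 0) := by
  refine squeeze_zero_norm (fun N => ?_) (by
    simpa using h.norm.add (tendsto_const_div_atTop_nhds_zero_nat (2 : ℝ)))
  rw [norm_div, Complex.norm_natCast, ← add_div]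
  refine div_le_div_of_nonneg_right ?_ (Nat.cast_nonneg N)
  have e : ∑ n ∈ Icc 1 N, g n = ∑ n ∈ range N, g n + (g N - g 0) := by
    have h1 : ∑ n ∈ range (N + 1), g n = g 0 + ∑ n ∈ Icc 1 N, g n := by
      rw [sum_range_eq_add_Ico g N.succ_pos, Nat.succ_eq_add_one, Finset.Ico_add_one_right_eq_Icc]
    rw [sum_range_succ] at h1
    linear_combination -h1
  rw [e]
  refine (norm_add_le _ _).trans (add_le_add le_rfl ((norm_sub_le _ _).trans ?_))
  linarith [hg N, hg 0]

/-- **Daboussi's theorem**, for polynomial phases and uniformly in the function. -/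
theorem daboussi (P : ℝ[X]) (hP : ∃ j, 1 ≤ j ∧ Irrational (P.coeff j)) {ε : ℝ} (hε : 0 < ε) :
    ∀ᶠ N : ℕ in atTop, ∀ f : ℕ → ℂ, (∀ m n : ℕ, m.Coprime n → f (m * n) = f m * f n) →
      (∀ n, ‖f n‖ ≤ 1) → ‖∑ n ∈ Icc 1 N, f n * eAdd (P.eval (n : ℝ))‖ ≤ ε * N := by
  refine katai (fun n => (norm_eAdd _).le) 0 (fun p q _ _ _ _ hpq => ?_) hε
  obtain ⟨j, hj1, hj⟩ := hP
  set Q : ℝ[X] := P.comp (C (p : ℝ) * X) - P.comp (C (q : ℝ) * X) with hQdef
  have hQ : ∃ i, 1 ≤ i ∧ Irrational (Q.coeff i) := by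
    refine ⟨j, hj1, ?_⟩
    rw [hQdef, coeff_sub, comp_C_mul_X_coeff, comp_C_mul_X_coeff, ← mul_sub]
    have hne : (p : ℤ) ^ j - (q : ℤ) ^ j ≠ 0 := by
      rw [sub_ne_zero]
      exact_mod_cast fun h => hpq (Nat.pow_left_injective (by omega) h)
    simpa using hj.mul_intCast hne
  refine tendsto_mean_Icc_of_range (fun n => ?_) ?_
  · rw [norm_mul, RCLike.norm_conj, norm_eAdd, norm_eAdd, one_mul]
  · have h := expMeanZero_poly Q hQ 1 one_ne_zero
    simp only [avg, card_range] at h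
    refine h.congr fun N => congrArg (· / (N : ℂ)) (sum_congr rfl fun n _ => ?_)
    rw [conj_eAdd, ← eAdd_add, Int.cast_one, one_mul, hQdef, eval_sub, eval_comp, eval_comp]
    simp only [eval_mul, eval_C, eval_X, Nat.cast_mul]
    rw [sub_eq_add_neg]

/-- The mean of a fixed multiplicative function against a polynomial phase. -/
theorem tendsto_mean_mul_eAdd (P : ℝ[X]) (hP : ∃ j, 1 ≤ j ∧ Irrational (P.coeff j)) {f : ℕ → ℂ}
    (hmul : ∀ m n : ℕ, m.Coprime n → f (m * n) = f m * f n) (hf : ∀ n, ‖f n‖ ≤ 1) :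
    Tendsto (fun N : ℕ => (∑ n ∈ Icc 1 N, f n * eAdd (P.eval (n : ℝ))) / N) atTop (𝓝 0) := by
  refine Metric.tendsto_atTop.2 fun ε hε => ?_
  obtain ⟨N₀, hN₀⟩ := eventually_atTop.1 (daboussi P hP (half_pos hε))
  refine ⟨max N₀ 1, fun N hN => ?_⟩
  have hN0 : (0 : ℝ) < N := Nat.cast_pos.2 (le_of_max_le_right hN)
  rw [dist_zero_right, norm_div, Complex.norm_natCast, div_lt_iff₀ hN0]
  exact (hN₀ N (le_of_max_le_left hN) f hmul hf).trans_lt (by nlinarith)

end FA.Katai
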