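import Mathlib.Analysis.SpecialFunctions.Log.Basic
import Mathlib.Data.Nat.Log
import Mathlib.Algebra.Order.Archimedean.Basic

/-!
# Monotone additive functions

Erdős's theorem: a monotone additive function is a multiple of `log`. As `a` is prime to
`a ^ k + 1` and to `a ^ k - 1`, monotonicity gives `g (a ^ k) = k g a + O (1)`.
-/

set_option autoImplicit false

noncomputable section

namespace FA.Katai

open Filter

variable {g : ℕ → ℝ}

theorem apply_one_of_additive (hadd : ∀ m n : ℕ, m.Coprime n → g (m * n) = g m + g n) :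
    g 1 = 0 := by
  have := hadd 1 1 (Nat.coprime_one_left 1)
  rw [mul_one] at this
  linarith

/-- `g (a ^ k) = k g a + O (1)` for monotone additive `g`. -/
theorem exists_abs_pow_sub_le (hadd : ∀ m n : ℕ, m.Coprime n → g (m * n) = g m + g n)
    (hmono : ∀ m n : ℕ, 1 ≤ m → m ≤ n → g m ≤ g n) {a : ℕ} (ha : 2 ≤ a) :
    ∃ C, ∀ k : ℕ, |g (a ^ k) - k * g a| ≤ C := by
  refine ⟨max (g (a + 1) - g a) (g a - g (a - 1)), fun k => ?_⟩
  have hC0 : 0 ≤ max (g (a + 1) - g a) (g a - g (a - 1)) :=
    le_max_of_le_left (by linarith [hmono a (a + 1) (by omega) (by omega)])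
  rcases Nat.eq_zero_or_pos k with rfl | hk
  · simpa [apply_one_of_additive hadd] using hC0
  have up : ∀ i : ℕ, g (a ^ (i + 1) + 1) ≤ i * g a + g (a + 1) := by
    intro i
    induction i with
    | zero => simp
    | succ i ih =>
      have hc : a.Coprime (a ^ (i + 1) + 1) := by
        rw [Nat.coprime_comm, pow_succ, Nat.add_comm, Nat.coprime_add_mul_right_left]
        exact Nat.coprime_one_left a
      have h1 := hmono (a ^ (i + 1 + 1) + 1) (a * (a ^ (i + 1) + 1)) (by omega)
        (by rw [mul_add, mul_one, ← pow_succ']; omega)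
      rw [hadd _ _ hc] at h1
      push_cast
      linarith
  have low : ∀ i : ℕ, i * g a + g (a - 1) ≤ g (a ^ (i + 1) - 1) := by
    intro i
    induction i with
    | zero => simp
    | succ i ih =>
      have hpos : 2 ≤ a ^ (i + 1) := ha.trans (Nat.le_self_pow i.succ_ne_zero a)
      have hc : a.Coprime (a ^ (i + 1) - 1) := by
        refine Nat.Coprime.coprime_dvd_left (dvd_pow_self a i.succ_ne_zero) ?_
        rw [Nat.coprime_self_sub_right (by omega : 1 ≤ a ^ (i + 1))]
        exact Nat.coprime_one_right _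
      have h1 := hmono (a * (a ^ (i + 1) - 1)) (a ^ (i + 1 + 1) - 1)
        (Nat.one_le_iff_ne_zero.2 (Nat.mul_ne_zero (by omega) (by omega)))
        (by rw [Nat.mul_sub, mul_one, ← pow_succ']; omega)
      rw [hadd _ _ hc] at h1
      push_cast
      linarith
  obtain ⟨i, rfl⟩ : ∃ i, k = i + 1 := ⟨k - 1, by omega⟩
  have hpos : 2 ≤ a ^ (i + 1) := ha.trans (Nat.le_self_pow i.succ_ne_zero a)
  have h1 := hmono _ (a ^ (i + 1) + 1) (by omega) (Nat.le_succ _)
  have h2 := hmono (a ^ (i + 1) - 1) _ (by omega) (Nat.sub_le _ 1)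
  have h3 := up i
  have h4 := low i
  rw [abs_le]
  push_cast
  constructor
  · linarith [le_max_right (g (a + 1) - g a) (g a - g (a - 1))]
  · linarith [le_max_left (g (a + 1) - g a) (g a - g (a - 1))]

/-- **Erdős's theorem** for nondecreasing functions. -/
theorem eq_mul_log_of_monotone (hadd : ∀ m n : ℕ, m.Coprime n → g (m * n) = g m + g n)
    (hmono : ∀ m n : ℕ, 1 ≤ m → m ≤ n → g m ≤ g n) :
    ∃ c : ℝ, ∀ n : ℕ, 1 ≤ n → g n = c * Real.log n := by
  refine ⟨g 2 / Real.log 2, fun b hb => ?_⟩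
  rcases eq_or_lt_of_le hb with rfl | hb2
  · simp [apply_one_of_additive hadd]
  obtain ⟨C, hC⟩ := exists_abs_pow_sub_le hadd hmono (le_refl 2)
  obtain ⟨C', hC'⟩ := exists_abs_pow_sub_le hadd hmono hb2
  have hl : 0 < Real.log 2 := Real.log_pos one_lt_two
  set D := g b * Real.log 2 - g 2 * Real.log b with hD
  have key : ∀ k : ℕ, |(k : ℝ) * D| ≤ Real.log 2 * (C + C' + 2 * |g 2|) := by
    intro k
    set j := Nat.log 2 (b ^ k) with hj
    have hbk : b ^ k ≠ 0 := pow_ne_zero k (by omega)
    have h1 : 2 ^ j ≤ b ^ k := Nat.pow_log_le_self 2 hbk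
    have h2 : b ^ k < 2 ^ (j + 1) := Nat.lt_pow_succ_log_self one_lt_two _
    have g1 := hmono _ _ (Nat.one_le_two_pow) h1
    have g2 := hmono _ _ (Nat.one_le_iff_ne_zero.2 hbk) h2.le
    have a1 := abs_le.1 (hC j)
    have a2 := abs_le.1 (hC (j + 1))
    have a3 := abs_le.1 (hC' k)
    push_cast at a2
    have hg : |(k : ℝ) * g b - j * g 2| ≤ C + C' + |g 2| := by
      rw [abs_le]
      have := neg_abs_le (g 2)
      have := le_abs_self (g 2)
      constructor <;> linarith
    have hlog1 : (j : ℝ) * Real.log 2 ≤ k * Real.log b := by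
      rw [← Real.log_pow, ← Real.log_pow]
      exact Real.log_le_log (by positivity) (by exact_mod_cast h1)
    have hlog2 : (k : ℝ) * Real.log b ≤ (j + 1) * Real.log 2 := by
      have : Real.log ((b : ℝ) ^ k) ≤ Real.log ((2 : ℝ) ^ (j + 1)) :=
        Real.log_le_log (pow_pos (Nat.cast_pos.2 (by omega)) k) (by exact_mod_cast h2.le)
      rw [Real.log_pow, Real.log_pow] at this
      push_cast at this
      exact this
    have hlog : |(k : ℝ) * Real.log b - j * Real.log 2| ≤ Real.log 2 := by
      rw [abs_le]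
      constructor <;> linarith
    have e : (k : ℝ) * D = ((k : ℝ) * g b - j * g 2) * Real.log 2 -
        g 2 * ((k : ℝ) * Real.log b - j * Real.log 2) := by
      rw [hD]
      ring
    rw [e]
    refine (abs_sub _ _).trans ?_
    rw [abs_mul, abs_mul, abs_of_pos hl]
    nlinarith [abs_nonneg (g 2)]
  have hD0 : D = 0 := by
    by_contra hne
    obtain ⟨k, hk⟩ := exists_nat_gt (Real.log 2 * (C + C' + 2 * |g 2|) / |D|)
    have := key k
    rw [div_lt_iff₀ (abs_pos.2 hne)] at hk
    rw [abs_mul, Nat.abs_cast] at this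
    linarith
  rw [div_mul_eq_mul_div, eq_div_iff hl.ne']
  linarith

/-- **Erdős's theorem**: a monotone additive function is a multiple of the logarithm. -/
theorem eq_mul_log (hadd : ∀ m n : ℕ, m.Coprime n → g (m * n) = g m + g n)
    (hmono : MonotoneOn g (Set.Ici 1) ∨ AntitoneOn g (Set.Ici 1)) :
    ∃ c : ℝ, ∀ n : ℕ, 1 ≤ n → g n = c * Real.log n := by
  rcases hmono with h | h
  · exact eq_mul_log_of_monotone hadd fun m n hm hmn => h hm (hm.trans hmn) hmn
  · obtain ⟨c, hc⟩ := eq_mul_log_of_monotone (g := fun n => -g n)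
      (fun m n hmn => by simp only [hadd m n hmn]; ring)
      fun m n hm hmn => neg_le_neg (h hm (hm.trans hmn) hmn)
    exact ⟨-c, fun n hn => by rw [neg_mul, ← hc n hn, neg_neg]⟩

end FA.Katai
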